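/-
Programme MAZ (S15), export T1A-X (reports 1082, 1093, 1123), brick X3 (helper59):
**the hub assembly for a `G_ℓ`-stable subgroup `S` of `J₀(M)`** (not necessarily torsion, not
necessarily finite).

`modCoordData_of_props_sub` = `T1.Assembly41.Final.modCoordData_of_props` with the finite module
`J₀(M)[ℓ^k]` replaced by `↥S`; `CentresFinal` is applied to finitely many representatives of `S`
modulo `G_ℓ`-fixed elements (`hrep`).  For `S = V ⊔ ℤ y₀` with `V` finite stable and `N • y₀`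
fixed by `G_ℓ` the hypotheses hold (`fg_sup_zmultiples`, `hrep_sup_zmultiples`).
-/
import Mathlib
import Fermat.Agent.T1.Assembly41.Final
import Fermat.Agent.T1.Dict59.FinalGen

set_option autoImplicit false
set_option linter.unusedSectionVars false
set_option linter.style.haveILetI false

noncomputable section

open TensorProduct

namespace Fermat.Agent.MAZ.KumFlat59

open Fermat.Agent Fermat.Agent.Jac Fermat.Agent.T1.RedIface75 Fermat.Agent.TW.B5.Iface
open Fermat.Agent.T1.AlgIface47 Fermat.Agent.T1.HubInst98 Fermat.Agent.T1.GalAct44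
open Fermat.Agent.RED.Interface4 Fermat.Agent.Flat44 Fermat.Agent.T1.HubGal44
open Fermat.Agent.T1.Red20.CoordFun Fermat.Agent.T1.Assembly41 Fermat.Agent.T1.Dict59
open ModularCurve

variable (ℓ : ℕ) [Fact ℓ.Prime] (M : ℕ) [NeZero M]
variable {B0 B1 B01 : Type} [CommRing B0] [CommRing B1] [CommRing B01]
  [Algebra (Wr ℓ M) B0] [Algebra (Wr ℓ M) B1] [Algebra (Wr ℓ M) B01] [Algebra B0 B01]
  [Algebra B1 B01] [IsScalarTower (Wr ℓ M) B0 B01] [IsScalarTower (Wr ℓ M) B1 B01]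
  (c0 : TwoChart (Wr ℓ M) B0 B1 B01) {g : ℕ} (b : Fin g → B01)
  (H : ChartAction c0 (Gp ℓ))

/-- Finitely many representatives of `S` modulo `G_ℓ`-fixed elements. -/
def HasFiniteReps (S : AddSubgroup (JZero M))
    (hS : ∀ (σ : Gp ℓ) (y : JZero M), y ∈ S → localGaloisToGlobal ℓ σ • y ∈ S) : Prop :=
  ∃ (I : Type) (_ : Finite I) (z : I → ↥S), ∀ y : ↥S, ∃ (i : I) (s : ↥S),
    (∀ σ : Gp ℓ, subAct ℓ M S hS σ s = s) ∧ y = z i + s

set_option maxHeartbeats 1000000 in
/-- **The hub assembly for a stable subgroup.** -/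
theorem modCoordData_of_props_sub (hℓM : ¬ ℓ ∣ M) (hW : WCompat ℓ M c0 H)
    (hb : ∀ (σ : Gp ℓ) (i : Fin g), (H.S σ).σ01 (b i) = b i)
    (hRed : ∀ (L : IntermediateField ℚ Qbar) [FiniteDimensional ℚ L] (hle : K1 M ≤ L),
      HubRedAt ℓ M c0 b L hle)
    (hNorms : ∀ (L : IntermediateField ℚ Qbar) [FiniteDimensional ℚ L], NormsAt ℓ L)
    (hMu : WMu ℓ M) (S : AddSubgroup (JZero M))
    (hS : ∀ (σ : Gp ℓ) (y : JZero M), y ∈ S → localGaloisToGlobal ℓ σ • y ∈ S)
    (hrep : HasFiniteReps ℓ M S hS)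
    (hDict : DictFinalGen ℓ M c0 H hW S hS) (hCen : CentresFinal ℓ M c0 H hW) :
    ∃ (J : Type) (_ : AddCommGroup J),
      Nonempty (ModCoordData ℓ J ↥S (subAct ℓ M S hS)) := by
  obtain ⟨I, hI, z, hz⟩ := hrep
  obtain ⟨L₀, hL₀, hD⟩ := hDict
  haveI := hL₀
  obtain ⟨L₁, hL₁fd, hL₁n, hL₁le⟩ := exists_normal_fd_ge (L₀ ⊔ K1 M)
  haveI := hL₁fd
  haveI := hL₁n
  have hle₁ : K1 M ≤ L₁ := le_trans le_sup_right hL₁le
  have h₀ : L₀ ≤ L₁ := le_trans le_sup_left hL₁le
  obtain ⟨d₁, hd₁mem, hD'⟩ := hD L₁ hle₁ h₀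
  obtain ⟨L, hLfd, hLn, hL, hC⟩ := hCen L₁ hle₁ I (fun i => d₁ (z i)) (fun i => hd₁mem (z i))
  haveI := hLfd
  haveI := hLn
  obtain ⟨d, hdmul, hdinj, hdmem, hdeq, hdcompat⟩ := hD' L hL
  have hle : K1 M ≤ L := hle₁.trans hL
  letI := algAK (padicPlace ℓ) hle
  letI := algAKL (padicPlace ℓ) hle
  haveI := isScalarTower_AK (padicPlace ℓ) hle
  haveI := isDVR_OL ℓ L
  obtain ⟨e, he, hmem_pow, hdiv_pow, hmem_max, hfield⟩ := hNorms L
  obtain ⟨hEU, hInj, hExt, hF⟩ := hRed L hle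
  choose F hF using hF
  have hc : ∀ (σ : Gp ℓ) (a : OL ℓ L),
      (semiL hW L hle).f σ (algebraMap (OL ℓ L) ↥L a) =
        algebraMap (OL ℓ L) ↥L ((semiO hW L hle).f σ a) := fun σ a => rfl
  let HG := HubGal.ofPoints H (semiO hW L hle) (semiL hW L hle) hc
  let emb : ↥S →+ Fermat.Agent.T1.JModel25.Model (ptFamily c0 ↥L) := embOfPoints d hdmul hdmem
  have hemb : ∀ y, Additive.toMul (HG.φ (emb y)) = d y :=
    ofPoints_φ_emb H (semiO hW L hle) (semiL hW L hle) hc d hdmul hdmem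
  have hembeq : ∀ σ y, emb (subAct ℓ M S hS σ y) = HG.act σ (emb y) := fun σ y =>
    embOfPoints_equiv H (semiO hW L hle) (semiL hW L hle) hc d hdmul hdmem
      (subAct ℓ M S hS) hdeq σ y
  refine ⟨Fermat.Agent.T1.JModel25.Model (ptFamily c0 ↥L), inferInstance, ?_⟩
  refine HubData.nonempty_modCoordData (c0 := c0) (b := b) (O := OL ℓ L) (L := ↥L)
    { HG with
      jL := jL L
      jL_int := fun x => (norm_iota_jL_le_one_iff ℓ _).2 x.2
      e := e
      e_pos := he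
      mem_pow := hmem_pow
      div_pow := hdiv_pow
      mem_max := hmem_max
      field := hfield
      jL_fL := fun σ x => jL_resL L (localGaloisToGlobal ℓ σ) x
      hb := hb
      hEU := hEU
      hInj := hInj
      hExt := hExt
      m := M
      m_ndvd := hℓM
      W_mu := fun w => hMu w
      F := F
      hF := hF
      emb := emb
      emb_inj := embOfPoints_injective d hdmul hdmem hdinj
      emb_equiv := hembeq
      centres := ?_ }
  intro y
  obtain ⟨i, s, hsfix, rfl⟩ := hz y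
  obtain ⟨x', hx'mem, ⟨w, hwJ1, hw⟩, E, hEfd, hEun, hEfix⟩ := hC i
  obtain ⟨x, hx⟩ := ofPoints_exists_φ_eq H (semiO hW L hle) (semiL hW L hle) hc hx'mem
  refine ⟨x + emb s, ⟨w, hwJ1, ?_⟩, E, hEfd, hEun, fun σ hσ => ?_⟩
  · have h1 : emb (z i + s) - (x + emb s) = emb (z i) - x := by
      rw [map_add, add_sub_add_right_eq_sub]
    rw [hw, hdcompat (z i), h1, map_sub]
    show _ = Additive.toMul (HG.φ (emb (z i))) / Additive.toMul (HG.φ x)
    rw [hemb (z i), hx, div_eq_mul_inv]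
  · rw [map_add, ← hembeq σ s, hsfix σ]
    congr 1
    apply HG.φ_inj
    apply Additive.toMul.injective
    rw [HG.φ_act, hx]
    exact hEfix σ hσ

end Fermat.Agent.MAZ.KumFlat59
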