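/-
Programme MAZ (S15), export T1A-X (reports 1082, 1093, 1123), brick X3/X5 (helper59):
**the hub assembly for a stable subgroup at the concrete hub and at the auxiliary levels**.

* `modCoordData_sub_of_model` : the variant of `Assembly41.nonempty_hubPackage_of_model` ending in
  `modCoordData_of_props_sub` (the invariant Čech basis, `HubRedAt`, `NormsAt`, `WMu` exactly as there;
  `DictFinalGen` from a chart isomorphism family);
* `modCoordData_sub_concrete` : at the concrete hub `Concrete.c0 F` with `ChartAct.chartAction F`;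
* `exists_modCoordData_sub` : at the auxiliary level `M = auxLevel ℓ N` for every `N`, `ℓ ∤ N`:
  every finitely generated `G_ℓ`-stable subgroup `S` of `J₀(M)` with finitely many representatives
  modulo fixed elements has arithmetic local analytic group data `ModCoordData ℓ J ↥S (subAct ..)`.
-/
import Mathlib
import Fermat.Agent.T1.Assembly41.Package
import Fermat.Agent.T1.Assembly41.ChartActConcrete
import Fermat.Agent.T1.Assembly41.ChartIsoConcrete
import Fermat.Agent.T1.ModelBC51.HubFactsConcrete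
import Fermat.Agent.T1.Assembly41.FastInst
import Fermat.Agent.MAZ.KumFlat59.ModCoordSub

set_option autoImplicit false
set_option linter.unusedSectionVars false
set_option linter.style.haveILetI false

noncomputable section

open TensorProduct Polynomial

namespace Fermat.Agent.MAZ.KumFlat59

open Fermat.Agent Fermat.Agent.Jac Fermat.Agent.T1.RedIface75 Fermat.Agent.TW.B5.Iface
open Fermat.Agent.T1.AlgIface47 Fermat.Agent.T1.HubInst98 Fermat.Agent.T1.GalAct44
open Fermat.Agent.RED.Interface4 Fermat.Agent.RED.CORE.CoreIface24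
open Fermat.Agent.RED.PUR.GaussGen8
open Fermat.Agent.T1.HubRed76 Fermat.Agent.T1.CechFormal70 Fermat.Agent.T1.Coh60
open Fermat.Agent.T1.Red20.CoordFun Fermat.Agent.T1.ModelUnr4.Explicit
open Fermat.Agent.T1.Assembly41 Fermat.Agent.T1.Assembly41.Concrete Fermat.Agent.T1.Dict59
open Fermat.Agent.T1
open Fermat.Agent.X0 ModularCurve
open scoped Fermat.Agent.T1.Assembly41.FastInst

attribute [local instance] Coh60.algebra0 Coh60.algebra1 Coh60.isScalarTower0
  Coh60.isScalarTower1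

section Model

variable (ℓ : ℕ) [Fact ℓ.Prime] (M : ℕ) [NeZero M]

/-- **The hub assembly for a stable subgroup, from a two-chart model over `W = A ∩ ℚ(ζ_M)`.** -/
theorem modCoordData_sub_of_model (hℓM : ¬ ℓ ∣ M)
    {F : Type} [Field F] [Algebra (Wr ℓ M) F] [Algebra ↥(K1 M) F]
    [IsScalarTower (Wr ℓ M) ↥(K1 M) F]
    {π : Wr ℓ M} {t : F} {B0 B1 : Subalgebra (Wr ℓ M) F} {Ov : ValuationSubring F}
    (M1 : TwoChartModel (Wr ℓ M) ↥(K1 M) F π t B0 B1 Ov)
    (hM : ModelHyp ↥(K1 M) π t B1 Ov)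
    (H : ChartAction (mc M1 :) (Gp ℓ)) (hW : WCompat ℓ M (mc M1 :) H)
    (h2 : ∀ σ : Gp ℓ, (∀ x ∈ K1 M, localGaloisToGlobal ℓ σ x = x) →
      (H.S σ).σ01 = RingHom.id ↥(B0 ⊔ B1))
    (hFacts : ∀ (L : IntermediateField ℚ Qbar) [FiniteDimensional ℚ L] (hle : K1 M ≤ L),
      letI := algAK (padicPlace ℓ) hle
      HubFacts (mc M1 :) (OL ℓ L))
    (hCen : CentresFinal ℓ M (mc M1 :) H hW)
    (Fam : ChartIsoFamily ℓ M (mc M1 :) H)
    (S : AddSubgroup (JZero M)) (hfg : S.FG)
    (hS : ∀ (σ : Gp ℓ) (y : JZero M), y ∈ S → localGaloisToGlobal ℓ σ • y ∈ S)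
    (hrep : HasFiniteReps ℓ M S hS) :
    ∃ (J : Type) (_ : AddCommGroup J),
      Nonempty (ModCoordData ℓ J ↥S (subAct ℓ M S hS)) := by
  -- the Čech datum of the model and its invariant twin
  let D := ModelCoh30.cechData M1 hM.hKF hM.hκ
  have hρ0 : ∀ x, D.ρ0 x = algebraMap ↥B0 ↥(B0 ⊔ B1) x := fun _ => rfl
  have hρ1 : ∀ x, D.ρ1 x = algebraMap ↥B1 ↥(B0 ⊔ B1) x := fun _ => rfl
  obtain ⟨D', h0', h1', hinv⟩ :=
    InvBasis70.exists_invariant_cechData_of_WCompat ℓ M hℓM H hW h2 D hρ0 hρ1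
  have hρ0' : ∀ x, D'.ρ0 x = algebraMap ↥B0 ↥(B0 ⊔ B1) x := fun x => by rw [h0']; exact hρ0 x
  have hρ1' : ∀ x, D'.ρ1 x = algebraMap ↥B1 ↥(B0 ⊔ B1) x := fun x => by rw [h1']; exact hρ1 x
  have hfp : (mc M1 :).FiniteProjOverLine := finiteProjOverLine M1 hM
  have hRed : ∀ (L : IntermediateField ℚ Qbar) [FiniteDimensional ℚ L] (hle : K1 M ≤ L),
      HubRedAt ℓ M (mc M1 :) D'.b L hle := by
    intro L _ hle
    letI := algAK (padicPlace ℓ) hle
    letI := algAKL (padicPlace ℓ) hle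
    haveI := isScalarTower_AK (padicPlace ℓ) hle
    haveI := isDVR_OL ℓ L
    obtain ⟨πO, hπO, hg⟩ := (hFacts L hle).exists_pi
    exact ⟨Red11.coordExistsUnique (mc M1 :) D' hρ0' hρ1' (OL ℓ L),
      CoordInj23.coordInjective_of_cechData (mc M1 :) hfp D' hρ0' hρ1' (OL ℓ L),
      Red68.extInjective_of_cechData (mc M1 :) D' hρ0' hρ1' (OL ℓ L) ↥L hπO hg,
      fun n => ⟨D'.F n, groupLawAt (mc M1 :) D' hρ0' hρ1' (OL ℓ L) n⟩⟩
  exact modCoordData_of_props_sub ℓ M (mc M1 :) D'.b H hℓM hW hinv hRed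
    (fun L _ => HubNorms70.normsAt ℓ L) (HubNorms70.wMu ℓ M) S hS hrep
    (dictFinalGen ℓ M (mc M1 :) H Fam hW S hfg hS) hCen

end Model

section Concrete

variable {ℓ : ℕ} [Fact ℓ.Prime] {M : ℕ} [NeZero M] {n e : ℕ} [NeZero n]

/-- **The hub assembly for a stable subgroup at the concrete hub.** -/
theorem modCoordData_sub_concrete (F : ModelFamily ℓ M n e)
    (S : AddSubgroup (JZero M)) (hfg : S.FG)
    (hS : ∀ (σ : Gp ℓ) (y : JZero M), y ∈ S → localGaloisToGlobal ℓ σ • y ∈ S)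
    (hrep : HasFiniteReps ℓ M S hS) :
    ∃ (J : Type) (_ : AddCommGroup J),
      Nonempty (ModCoordData ℓ J ↥S (subAct ℓ M S hS)) :=
  haveI := (explicitK F (K1 M) (zetaK_mem_K1 M)).finite
  modCoordData_sub_of_model ℓ M F.hℓM (modelK F (K1 M) (zetaK_mem_K1 M)) (modelHyp F)
    (ChartAct.chartAction F) (ChartAct.wCompat F) (ChartAct.h2 F)
    (fun L _ hle => ModelBC51.HubFactsConcrete.hubFacts_concrete F L hle)
    (CentresInst75.centresFinal_of_model_h2 (modelK F (K1 M) (zetaK_mem_K1 M))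
      (ChartAct.chartAction F) (ChartAct.wCompat F)
      (unif_irreducible ℓ (K1 M)) (explicitK F (K1 M) (zetaK_mem_K1 M)).transc F.hℓM
      (HubNorms70.wMu ℓ M) (ChartAct.h2 F)
      (fun L _ hle => ModelBC51.HubFactsConcrete.hubFacts_concrete F L hle))
    (ChartIsoC.concreteFamily F) S hfg hS hrep

end Concrete

/-- **T1A-X, geometric half**: at the auxiliary level `M = auxLevel ℓ N` (`ℓ ∤ N`), every finitely
generated `G_ℓ`-stable subgroup `S` of `J₀(M)` with finitely many representatives modulo `G_ℓ`-fixed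
elements has arithmetic local analytic group data. -/
theorem exists_modCoordData_sub (N : ℕ) [NeZero N] (ℓ : ℕ) [Fact ℓ.Prime] (h : ¬ ℓ ∣ N)
    [NeZero (auxLevel ℓ N)] (S : AddSubgroup (JZero (auxLevel ℓ N))) (hfg : S.FG)
    (hS : ∀ (σ : Gp ℓ) (y : JZero (auxLevel ℓ N)), y ∈ S → localGaloisToGlobal ℓ σ • y ∈ S)
    (hrep : HasFiniteReps ℓ (auxLevel ℓ N) S hS) :
    ∃ (J : Type) (_ : AddCommGroup J),
      Nonempty (ModCoordData ℓ J ↥S (subAct ℓ (auxLevel ℓ N) S hS)) := by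
  have hℓ : ℓ.Prime := Fact.out
  have hℓM : ¬ ℓ ∣ auxLevel ℓ N := not_dvd_auxLevel hℓ h
  by_cases h2 : ℓ = 2
  · have hd : 9 ∣ auxLevel ℓ N := by
      unfold auxLevel
      rw [if_pos h2]
      exact Nat.dvd_lcm_right N 9
    exact modCoordData_sub_concrete (modelFamily_nine ℓ (auxLevel ℓ N) hd hℓM) S hfg hS hrep
  · have hd : 4 ∣ auxLevel ℓ N := by
      unfold auxLevel
      rw [if_neg h2]
      exact Nat.dvd_lcm_right N 4
    exact modCoordData_sub_concrete (modelFamily_four ℓ (auxLevel ℓ N) hd hℓM) S hfg hS hrep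

end Fermat.Agent.MAZ.KumFlat59
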