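/-
Programme MAZ (S15), export T1A-X (reports 1082, 1093, 1123), brick X3 (helper59):
the subgroup `S = V ⊔ ℤ y₀` of `J₀(M)` (`V` finite and `G_ℓ`-stable, `σ y₀ - y₀ ∈ V`, `N • y₀` fixed by
`G_ℓ`) satisfies the hypotheses of `modCoordData_of_props_sub`: it is finitely generated, stable, and
has finitely many representatives modulo fixed elements.
-/
import Mathlib
import Fermat.Agent.MAZ.KumFlat59.ModCoordSub

set_option autoImplicit false
set_option linter.unusedSectionVars false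

noncomputable section

namespace Fermat.Agent.MAZ.KumFlat59

open Fermat.Agent Fermat.Agent.TW.B5.Iface Fermat.Agent.Flat44
open Fermat.Agent.RED.Interface4 Fermat.Agent.T1.Dict59
open ModularCurve

variable (ℓ : ℕ) [Fact ℓ.Prime] (M : ℕ) [NeZero M]

/-- The subgroup generated by `V` and the point `y₀`. -/
def supPoint (V : AddSubgroup (JZero M)) (y0 : JZero M) : AddSubgroup (JZero M) :=
  V ⊔ AddSubgroup.zmultiples y0

variable {M}

theorem mem_supPoint {V : AddSubgroup (JZero M)} {y0 y : JZero M} :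
    y ∈ supPoint M V y0 ↔ ∃ v ∈ V, ∃ n : ℤ, y = v + n • y0 := by
  unfold supPoint
  rw [AddSubgroup.mem_sup]
  constructor
  · rintro ⟨v, hv, w, hw, rfl⟩
    obtain ⟨n, rfl⟩ := AddSubgroup.mem_zmultiples_iff.1 hw
    exact ⟨v, hv, n, rfl⟩
  · rintro ⟨v, hv, n, rfl⟩
    exact ⟨v, hv, n • y0, AddSubgroup.mem_zmultiples_iff.2 ⟨n, rfl⟩, rfl⟩

theorem le_supPoint (V : AddSubgroup (JZero M)) (y0 : JZero M) : V ≤ supPoint M V y0 :=
  le_sup_left

theorem mem_supPoint_self (V : AddSubgroup (JZero M)) (y0 : JZero M) : y0 ∈ supPoint M V y0 :=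
  (le_sup_right : AddSubgroup.zmultiples y0 ≤ V ⊔ AddSubgroup.zmultiples y0)
    (AddSubgroup.mem_zmultiples y0)

/-- `V ⊔ ℤ y₀` is finitely generated when `V` is finite. -/
theorem fg_supPoint (V : AddSubgroup (JZero M)) [Finite ↥V] (y0 : JZero M) :
    (supPoint M V y0).FG := by
  classical
  have hV : V.FG := by
    rw [AddSubgroup.fg_iff]
    refine ⟨(V : Set (JZero M)), AddSubgroup.closure_eq V, ?_⟩
    exact Set.toFinite _
  have h0 : (AddSubgroup.zmultiples y0).FG := by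
    rw [AddSubgroup.fg_iff]
    exact ⟨{y0}, (AddSubgroup.zmultiples_eq_closure y0).symm, Set.finite_singleton y0⟩
  exact hV.sup h0

/-- `V ⊔ ℤ y₀` is stable when `V` is and `σ y₀ - y₀ ∈ V`. -/
theorem stable_supPoint (V : AddSubgroup (JZero M)) (y0 : JZero M)
    (hV : ∀ (σ : Gp ℓ) (y : JZero M), y ∈ V → localGaloisToGlobal ℓ σ • y ∈ V)
    (hy0 : ∀ σ : Gp ℓ, localGaloisToGlobal ℓ σ • y0 - y0 ∈ V) :
    ∀ (σ : Gp ℓ) (y : JZero M), y ∈ supPoint M V y0 →
      localGaloisToGlobal ℓ σ • y ∈ supPoint M V y0 := by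
  intro σ y hy
  obtain ⟨v, hv, n, rfl⟩ := mem_supPoint.1 hy
  rw [mem_supPoint]
  refine ⟨localGaloisToGlobal ℓ σ • v + n • (localGaloisToGlobal ℓ σ • y0 - y0),
    V.add_mem (hV σ v hv) (V.zsmul_mem (hy0 σ) n), n, ?_⟩
  have h1 : localGaloisToGlobal ℓ σ • (n • y0) = n • (localGaloisToGlobal ℓ σ • y0) :=
    map_zsmul (DistribSMul.toAddMonoidHom (JZero M) (localGaloisToGlobal ℓ σ)) n y0
  rw [smul_add, h1, zsmul_sub]
  abel

/-- **Finitely many representatives modulo fixed elements** for `V ⊔ ℤ y₀`, when `V` is finite and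
`N • y₀` is fixed by `G_ℓ` (`N > 0`). -/
theorem hasFiniteReps_supPoint (V : AddSubgroup (JZero M)) [Finite ↥V] (y0 : JZero M)
    (N : ℕ) (hN : 0 < N)
    (hfix : ∀ σ : Gp ℓ, localGaloisToGlobal ℓ σ • (N • y0) = N • y0)
    (hS : ∀ (σ : Gp ℓ) (y : JZero M), y ∈ supPoint M V y0 →
      localGaloisToGlobal ℓ σ • y ∈ supPoint M V y0) :
    HasFiniteReps ℓ M (supPoint M V y0) hS := by
  have hy0 : y0 ∈ supPoint M V y0 := mem_supPoint_self V y0
  refine ⟨↥V × Fin N, inferInstance, fun p => ⟨(p.1 : JZero M) + (p.2 : ℕ) • y0,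
    (supPoint M V y0).add_mem (le_supPoint V y0 p.1.2) ((supPoint M V y0).nsmul_mem hy0 _)⟩, ?_⟩
  intro y
  obtain ⟨v, hv, n, hn⟩ := mem_supPoint.1 y.2
  have hNz : (N : ℤ) ≠ 0 := by exact_mod_cast hN.ne'
  have hr0 : 0 ≤ n % (N : ℤ) := Int.emod_nonneg n hNz
  have hrN : n % (N : ℤ) < N := Int.emod_lt_of_pos n (by exact_mod_cast hN)
  have hlt : (n % (N : ℤ)).toNat < N := by
    have := Int.toNat_of_nonneg hr0
    omega
  refine ⟨(⟨v, hv⟩, ⟨(n % (N : ℤ)).toNat, hlt⟩),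
    ⟨(n / (N : ℤ)) • (N • y0), (supPoint M V y0).zsmul_mem ((supPoint M V y0).nsmul_mem hy0 N) _⟩,
    fun σ => ?_, ?_⟩
  · apply Subtype.ext
    show localGaloisToGlobal ℓ σ • ((n / (N : ℤ)) • (N • y0)) = (n / (N : ℤ)) • (N • y0)
    have h1 : localGaloisToGlobal ℓ σ • ((n / (N : ℤ)) • (N • y0)) =
        (n / (N : ℤ)) • (localGaloisToGlobal ℓ σ • (N • y0)) :=
      map_zsmul (DistribSMul.toAddMonoidHom (JZero M) (localGaloisToGlobal ℓ σ)) _ _
    rw [h1, hfix σ]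
  · apply Subtype.ext
    show (y : JZero M) = ((v : JZero M) + ((n % (N : ℤ)).toNat : ℕ) • y0) +
      (n / (N : ℤ)) • (N • y0)
    have e1 : (((n % (N : ℤ)).toNat : ℕ) • y0 : JZero M) = (n % (N : ℤ)) • y0 := by
      rw [← natCast_zsmul, Int.toNat_of_nonneg hr0]
    have e2 : ((n / (N : ℤ)) • (N • y0) : JZero M) = ((n / (N : ℤ)) * (N : ℤ)) • y0 := by
      rw [← natCast_zsmul y0 N, mul_zsmul]
    have h3 : n % (N : ℤ) + n / (N : ℤ) * (N : ℤ) = n := Int.emod_add_ediv_mul n N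
    rw [hn, e1, e2, add_assoc, ← add_zsmul, h3]

end Fermat.Agent.MAZ.KumFlat59
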