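/-
Programme MAZ (S15), export T1A-X (reports 1082, 1093, 1123), brick X3 (helper59):
the hub assembly for a stable subgroup, from a hub package and a chart isomorphism family.
-/
import Mathlib
import Fermat.Agent.T1.Assembly41.Top
import Fermat.Agent.MAZ.KumFlat59.ModCoordSub

set_option autoImplicit false
set_option linter.unusedSectionVars false
set_option linter.style.haveILetI false

noncomputable section

namespace Fermat.Agent.MAZ.KumFlat59

open Fermat.Agent Fermat.Agent.Jac Fermat.Agent.T1.RedIface75 Fermat.Agent.TW.B5.Iface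
open Fermat.Agent.T1.AlgIface47 Fermat.Agent.T1.HubInst98 Fermat.Agent.T1.GalAct44
open Fermat.Agent.RED.Interface4 Fermat.Agent.Flat44
open Fermat.Agent.T1.Assembly41 Fermat.Agent.T1.Dict59
open ModularCurve

variable (ℓ : ℕ) [Fact ℓ.Prime] (M : ℕ) [NeZero M]

/-- The same from a hub package and a chart isomorphism family. -/
theorem modCoordData_of_package_sub (hℓM : ¬ ℓ ∣ M) (P : HubPackage ℓ M)
    (Fam : ChartIsoFamily ℓ M P.c0 P.H) (S : AddSubgroup (JZero M)) (hfg : S.FG)
    (hS : ∀ (σ : Gp ℓ) (y : JZero M), y ∈ S → localGaloisToGlobal ℓ σ • y ∈ S)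
    (hrep : HasFiniteReps ℓ M S hS) :
    ∃ (J : Type) (_ : AddCommGroup J),
      Nonempty (ModCoordData ℓ J ↥S (subAct ℓ M S hS)) :=
  modCoordData_of_props_sub ℓ M P.c0 P.b P.H hℓM P.hW P.hb P.hRed P.hNorms P.hMu S hS hrep
    (dictFinalGen ℓ M P.c0 P.H Fam P.hW S hfg hS) P.hCen

end Fermat.Agent.MAZ.KumFlat59
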